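import Fermat.Agent.JacRep.Coh.TwoTerm

/-!
# Linear algebra for the two-term complex

* `projective_ker`, `finite_ker`, `isBaseChange_ker`: kernels of surjections onto projective
  modules are projective, finite when bounded, and commute with base change.
* `bijective_of_rank_eq`: a surjection between finite projective modules of equal rank is
  bijective.
* `surjective_baseChange_iff`, `subsingleton_tensor_iff`: surjectivity after base change is
  governed by the annihilator of the cokernel.
-/

set_option autoImplicit false
set_option linter.style.haveILetI false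
set_option linter.unusedSectionVars false

noncomputable section

open TensorProduct

namespace FLTAgent.JacRep.TwoTerm

section Kernel

variable {R : Type*} [CommRing R] {T M : Type*} [AddCommGroup T] [AddCommGroup M] [Module R T]
  [Module R M] (Ψ : T →ₗ[R] M)

/-- The kernel of a surjection onto a projective module is projective. -/
theorem projective_ker [Module.Projective R T] [Module.Projective R M] (hΨ : Function.Surjective Ψ) :
    Module.Projective R (LinearMap.ker Ψ) := by
  obtain ⟨s, hs⟩ := Module.projective_lifting_property Ψ LinearMap.id hΨ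
  let ρ : T →ₗ[R] LinearMap.ker Ψ := (LinearMap.id - s.comp Ψ).codRestrict _ fun t => by
    rw [LinearMap.mem_ker, LinearMap.sub_apply, map_sub, LinearMap.comp_apply,
      ← LinearMap.comp_apply Ψ s, hs]
    simp
  refine Module.Projective.of_split (LinearMap.ker Ψ).subtype ρ ?_
  · refine LinearMap.ext fun t => Subtype.ext ?_
    show (t : T) - s (Ψ t) = t
    rw [LinearMap.mem_ker.1 t.2, map_zero, sub_zero]

/-- The kernel of a split surjection is finite if bounded by a finite submodule. -/
theorem finite_ker [Module.Projective R M] (hΨ : Function.Surjective Ψ) (S : Submodule R T)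
    (hS : S.FG) (hle : LinearMap.ker Ψ ≤ S) : Module.Finite R (LinearMap.ker Ψ) := by
  obtain ⟨s, hs⟩ := Module.projective_lifting_property Ψ LinearMap.id hΨ
  rw [Module.Finite.iff_fg]
  have : LinearMap.ker Ψ = S.map (LinearMap.id - s.comp Ψ) := by
    refine le_antisymm ?_ ?_
    · intro t ht
      refine ⟨t, hle ht, ?_⟩
      show t - s (Ψ t) = t
      rw [LinearMap.mem_ker.1 ht, map_zero, sub_zero]
    · rintro z ⟨t, -, rfl⟩
      rw [LinearMap.mem_ker, LinearMap.sub_apply, map_sub, LinearMap.comp_apply,
        ← LinearMap.comp_apply Ψ s, hs]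
      simp
  exact this ▸ hS.map _

variable {R' : Type*} [CommRing R'] [Algebra R R'] {T' M' : Type*} [AddCommGroup T']
  [AddCommGroup M'] [Module R T'] [Module R' T'] [IsScalarTower R R' T'] [Module R M']
  [Module R' M'] [IsScalarTower R R' M']

theorem surjective_of_isBaseChange {fT : T →ₗ[R] T'} {fM : M →ₗ[R] M'} (hM : IsBaseChange R' fM)
    {Ψ' : T' →ₗ[R'] M'} (hcomm : ∀ t, Ψ' (fT t) = fM (Ψ t)) (hΨ : Function.Surjective Ψ) :
    Function.Surjective Ψ' := fun m' => by
  induction m' using hM.inductionOn with
  | zero => exact ⟨0, map_zero _⟩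
  | tmul m => obtain ⟨t, rfl⟩ := hΨ m; exact ⟨fT t, hcomm t⟩
  | smul r m hm => obtain ⟨t, rfl⟩ := hm; exact ⟨r • t, map_smul _ _ _⟩
  | add a b ha hb =>
    obtain ⟨s, rfl⟩ := ha
    obtain ⟨t, rfl⟩ := hb
    exact ⟨s + t, map_add _ _ _⟩

/-- The map between the kernels of a square. -/
def kerMap {fT : T →ₗ[R] T'} {fM : M →ₗ[R] M'} {Ψ' : T' →ₗ[R'] M'}
    (hcomm : ∀ t, Ψ' (fT t) = fM (Ψ t)) : LinearMap.ker Ψ →ₗ[R] LinearMap.ker Ψ' where
  toFun t := ⟨fT t, by rw [LinearMap.mem_ker, hcomm, LinearMap.mem_ker.1 t.2, map_zero]⟩
  map_add' _ _ := Subtype.ext (map_add fT _ _)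
  map_smul' _ _ := Subtype.ext (map_smul fT _ _)

/-- The kernel of a split surjection commutes with base change. -/
theorem isBaseChange_ker [Module.Projective R M] {fT : T →ₗ[R] T'} {fM : M →ₗ[R] M'}
    (hT : IsBaseChange R' fT) (hM : IsBaseChange R' fM) {Ψ' : T' →ₗ[R'] M'}
    (hcomm : ∀ t, Ψ' (fT t) = fM (Ψ t)) (hΨ : Function.Surjective Ψ) :
    IsBaseChange R' (kerMap Ψ hcomm) := by
  obtain ⟨s, hs⟩ := Module.projective_lifting_property Ψ LinearMap.id hΨ
  let ρ : T →ₗ[R] LinearMap.ker Ψ := (LinearMap.id - s.comp Ψ).codRestrict _ fun t => by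
    rw [LinearMap.mem_ker, LinearMap.sub_apply, map_sub, LinearMap.comp_apply,
      ← LinearMap.comp_apply Ψ s, hs]
    simp
  have hρ : ∀ t, ((ρ t : LinearMap.ker Ψ) : T) = t - s (Ψ t) := fun _ => rfl
  let L : R' ⊗[R] LinearMap.ker Ψ →ₗ[R'] LinearMap.ker Ψ' :=
    LinearMap.liftBaseChange R' (kerMap Ψ hcomm)
  have hL : ∀ u, ((L u : LinearMap.ker Ψ') : T') =
      hT.equiv ((LinearMap.ker Ψ).subtype.baseChange R' u) := by
    intro u
    induction u using TensorProduct.induction_on with
    | zero => simp
    | tmul r x =>
      rw [LinearMap.baseChange_tmul, IsBaseChange.equiv_tmul, LinearMap.liftBaseChange_tmul]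
      rfl
    | add u v hu hv => simp only [map_add, Submodule.coe_add, hu, hv]
  have hsplit : ∀ t : R' ⊗[R] T, (LinearMap.ker Ψ).subtype.baseChange R' (ρ.baseChange R' t) =
      t - s.baseChange R' (Ψ.baseChange R' t) := by
    intro t
    induction t using TensorProduct.induction_on with
    | zero => simp
    | tmul r x => simp [hρ, TensorProduct.tmul_sub]
    | add u v hu hv => simp only [map_add, hu, hv]; abel
  have hΨeq : ∀ t : R' ⊗[R] T, Ψ' (hT.equiv t) = hM.equiv (Ψ.baseChange R' t) := by
    intro t
    induction t using TensorProduct.induction_on with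
    | zero => simp
    | tmul r x =>
      rw [LinearMap.baseChange_tmul, IsBaseChange.equiv_tmul, IsBaseChange.equiv_tmul, map_smul,
        hcomm]
    | add u v hu hv => simp only [map_add, hu, hv]
  have hbij : Function.Bijective L := by
    refine ⟨(injective_iff_map_eq_zero L).2 fun u hu => ?_, fun k => ?_⟩
    · have h1 : (LinearMap.ker Ψ).subtype.baseChange R' u = 0 := by
        refine hT.equiv.injective ?_
        rw [← hL, hu, ZeroMemClass.coe_zero, map_zero]
      have h2 : ρ.comp (LinearMap.ker Ψ).subtype = LinearMap.id :=
        LinearMap.ext fun x => Subtype.ext (by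
          rw [LinearMap.comp_apply, hρ, Submodule.subtype_apply, LinearMap.mem_ker.1 x.2, map_zero,
            sub_zero]
          rfl)
      have h3 := congrArg (fun g => g u) (congrArg (LinearMap.baseChange R') h2)
      simp only [LinearMap.baseChange_comp, LinearMap.comp_apply, h1, map_zero,
        LinearMap.baseChange_id, LinearMap.id_apply] at h3
      exact h3.symm
    · refine ⟨ρ.baseChange R' (hT.equiv.symm k), Subtype.ext ?_⟩
      rw [hL, hsplit]
      have h1 : Ψ.baseChange R' (hT.equiv.symm k) = 0 := by
        refine hM.equiv.injective ?_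
        rw [← hΨeq, LinearEquiv.apply_symm_apply, map_zero]
        exact k.2
      rw [h1, map_zero, sub_zero, LinearEquiv.apply_symm_apply]
  refine IsBaseChange.of_equiv (LinearEquiv.ofBijective L hbij) fun x => ?_
  show L (1 ⊗ₜ x) = _
  rw [LinearMap.liftBaseChange_tmul, one_smul]

end Kernel

section Rank

variable {R : Type*} [CommRing R]

/-- A surjection between projective modules of equal rank is bijective. -/
theorem bijective_of_rank_eq {K : Type*} [AddCommGroup K] [Module R K] [Module.Finite R K]
    [Module.Projective R K] {N : ℕ} {d : K →ₗ[R] (Fin N → R)} (hd : Function.Surjective d)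
    (hrank : ∀ p : PrimeSpectrum R, Module.rankAtStalk K p = N) : Function.Bijective d := by
  obtain ⟨s, hs⟩ := Module.projective_lifting_property d LinearMap.id hd
  have hds : ∀ c, d (s c) = c := fun c => LinearMap.congr_fun hs c
  haveI : Module.Projective R (LinearMap.ker d) := projective_ker d hd
  let ρ : K →ₗ[R] LinearMap.ker d := (LinearMap.id - s.comp d).codRestrict _ fun t => by
    rw [LinearMap.mem_ker, LinearMap.sub_apply, map_sub, LinearMap.comp_apply, hds]
    simp
  have hρsurj : Function.Surjective ρ := fun x => ⟨x, Subtype.ext (by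
    show (x : K) - s (d x) = x
    rw [LinearMap.mem_ker.1 x.2, map_zero, sub_zero])⟩
  haveI : Module.Finite R (LinearMap.ker d) := Module.Finite.of_surjective ρ hρsurj
  let e : K ≃ₗ[R] LinearMap.ker d × (Fin N → R) :=
    { toFun := fun t => (ρ t, d t)
      map_add' := fun a b => by simp
      map_smul' := fun r a => by simp
      invFun := fun p => (p.1 : K) + s p.2
      left_inv := fun t => by
        show t - s (d t) + s (d t) = t
        abel
      right_inv := fun p => by
        obtain ⟨⟨a, ha⟩, c⟩ := p
        have h : d (a + s c) = c := by rw [map_add, LinearMap.mem_ker.1 ha, zero_add, hds]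
        refine Prod.ext (Subtype.ext ?_) h
        show a + s c - s (d (a + s c)) = a
        rw [h]; abel }
  refine ⟨?_, hd⟩
  rw [← LinearMap.ker_eq_bot, ← Submodule.subsingleton_iff_eq_bot,
    ← Module.rankAtStalk_eq_zero_iff_subsingleton (R := R)]
  funext p
  have h := hrank p
  rw [congrFun (Module.rankAtStalk_eq_of_equiv e) p, Module.rankAtStalk_prod] at h
  haveI : Nontrivial R := p.nontrivial
  rw [Pi.add_apply, Module.rankAtStalk_eq_finrank_of_free (M := Fin N → R), Module.finrank_fin_fun,
    Pi.natCast_apply] at h
  rw [Pi.zero_apply]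
  simp only [Nat.cast_id] at h
  omega

variable {S : Type*} [CommRing S] [Algebra R S] (H : Type*) [AddCommGroup H] [Module R H]
  [Module.Finite R H]

/-- A finite module dies after base change iff its annihilator generates the unit ideal there. -/
theorem subsingleton_tensor_iff :
    Subsingleton (S ⊗[R] H) ↔ (Module.annihilator R H).map (algebraMap R S) = ⊤ := by
  constructor
  · intro hsub
    by_contra hne
    obtain ⟨P, hP, hle⟩ := Ideal.exists_le_maximal _ hne
    set p : PrimeSpectrum R := ⟨P.comap (algebraMap R S), inferInstance⟩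
    have hp : p ∈ Module.support R H := by
      rw [Module.support_eq_zeroLocus]
      exact Ideal.map_le_iff_le_comap.1 hle
    rw [Module.mem_support_iff_nontrivial_residueField_tensorProduct] at hp
    obtain ⟨v, hv⟩ := exists_ne (0 : p.asIdeal.ResidueField ⊗[R] H)
    obtain ⟨φ, hφ⟩ : ∃ φ : Module.Dual p.asIdeal.ResidueField (p.asIdeal.ResidueField ⊗[R] H),
        φ v ≠ 0 := by
      by_contra h
      push Not at h
      exact hv ((Module.forall_dual_apply_eq_zero_iff _ v).1 h)
    have hker : p.asIdeal = RingHom.ker (algebraMap R P.ResidueField) := by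
      rw [IsScalarTower.algebraMap_eq R S P.ResidueField, ← RingHom.comap_ker,
        Ideal.ker_algebraMap_residueField]
    let j : p.asIdeal.ResidueField →+* P.ResidueField :=
      Ideal.ResidueField.lift p.asIdeal (algebraMap R P.ResidueField) hker.le fun r hr => by
        exact isUnit_iff_ne_zero.2 fun h => hr (hker.symm ▸ RingHom.mem_ker.2 h)
    let g : H →ₗ[R] P.ResidueField :=
      { toFun := fun x => j (φ (1 ⊗ₜ x))
        map_add' := fun a b => by rw [TensorProduct.tmul_add, map_add, map_add]
        map_smul' := fun r a => by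
          rw [TensorProduct.tmul_smul, LinearMap.map_smul_of_tower, Algebra.smul_def,
            RingHom.id_apply, map_mul,
            show j (algebraMap R _ r) = algebraMap R P.ResidueField r from
              Ideal.ResidueField.lift_algebraMap .., ← Algebra.smul_def] }
    have hg : ∀ x, g x = 0 := fun x => by
      have h : LinearMap.liftBaseChange S g (1 ⊗ₜ x) = 0 := by
        rw [hsub.elim (1 ⊗ₜ x) 0, map_zero]
      rwa [LinearMap.liftBaseChange_tmul, one_smul] at h
    refine hφ ?_
    have hzero : ∀ u, φ u = 0 := by
      intro u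
      induction u using TensorProduct.induction_on with
      | zero => rw [map_zero]
      | tmul a x =>
        have h : φ (1 ⊗ₜ x) = 0 := j.injective ((hg x).trans (map_zero j).symm)
        rw [show a ⊗ₜ[R] x = a • ((1 : p.asIdeal.ResidueField) ⊗ₜ[R] x) by
          rw [TensorProduct.smul_tmul', smul_eq_mul, mul_one], map_smul, h, smul_zero]
      | add u v hu hv => rw [map_add, hu, hv, add_zero]
    exact hzero v
  · intro h
    refine subsingleton_of_forall_eq 0 fun u => ?_
    have hkill : ∀ a ∈ (Module.annihilator R H).map (algebraMap R S), a • u = 0 := by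
      intro a ha
      induction ha using Submodule.span_induction with
      | mem a ha =>
        obtain ⟨r, hr, rfl⟩ := ha
        rw [algebraMap_smul]
        clear * - hr
        induction u using TensorProduct.induction_on with
        | zero => rw [smul_zero]
        | tmul s x => rw [← TensorProduct.tmul_smul, Module.mem_annihilator.1 hr, TensorProduct.tmul_zero]
        | add u v hu hv => rw [smul_add, hu, hv, add_zero]
      | zero => rw [zero_smul]
      | add a b _ _ ha hb => rw [add_smul, ha, hb, add_zero]
      | smul c a _ ha => rw [smul_eq_mul, mul_smul, ha, smul_zero]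
    simpa using hkill 1 (h ▸ Submodule.mem_top)

/-- Surjectivity after base change is the vanishing of the base change of the cokernel. -/
theorem surjective_baseChange_iff {K L : Type*} [AddCommGroup K] [AddCommGroup L] [Module R K]
    [Module R L] (d : K →ₗ[R] L) :
    Function.Surjective (d.baseChange S) ↔ Subsingleton (S ⊗[R] (L ⧸ LinearMap.range d)) := by
  have hex := lTensor_exact S (LinearMap.exact_map_mkQ_range d)
    (Submodule.mkQ_surjective _)
  have hs := LinearMap.lTensor_surjective S (Submodule.mkQ_surjective (LinearMap.range d))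
  constructor
  · intro h
    refine subsingleton_of_forall_eq 0 fun u => ?_
    obtain ⟨v, rfl⟩ := hs u
    obtain ⟨w, rfl⟩ := h v
    exact hex.apply_apply_eq_zero w
  · intro h v
    exact (hex v).1 (h.elim _ _)

end Rank

end FLTAgent.JacRep.TwoTerm
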