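import Mathlib

/-!
# Invertible modules over `R ⊗ A`

* `projective_restrict`: finite projective modules over a free algebra are projective over the
  base.
* `finite_free_polynomial`: if `A` is free over the polynomials in `x` then `R ⊗ A` is free over
  `R[X]`.
* `isBaseChange_of_span`: a semilinear map with spanning image between invertible modules is a
  base change.
-/

set_option autoImplicit false
set_option linter.style.haveILetI false
set_option linter.unusedSectionVars false

noncomputable section

open TensorProduct Polynomial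

universe u

namespace FLTAgent.JacRep.TwoTerm

variable {k : Type u} [Field k] {R : Type u} [CommRing R] [Algebra k R] {A : Type u} [CommRing A]
  [Algebra k A]

/-- A finite projective module over a free algebra is projective over the base. -/
theorem projective_restrict {S B M : Type*} [CommRing S] [CommRing B] [Algebra S B]
    [Module.Free S B] [AddCommGroup M] [Module B M] [Module S M] [IsScalarTower S B M]
    [Module.Finite B M] [Module.Projective B M] : Module.Projective S M := by
  obtain ⟨n, π, hπ⟩ := Module.Finite.exists_fin' B M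
  obtain ⟨j, hj⟩ := Module.projective_lifting_property π LinearMap.id hπ
  exact Module.Projective.of_split (j.restrictScalars S) (π.restrictScalars S)
    (LinearMap.ext fun m => LinearMap.congr_fun hj m)

/-- If `A` is free over the polynomials in `x` then so is `R ⊗ A`. -/
theorem finite_free_polynomial (x : A) {n : ℕ} (b : Fin n → A)
    (hb : Function.Bijective fun c : Fin n → k[X] => ∑ i, Polynomial.aeval x (c i) * b i) :
    letI := (Polynomial.aeval ((1 : R) ⊗ₜ[k] x) : R[X] →ₐ[R] R ⊗[k] A).toRingHom.toAlgebra
    Module.Finite R[X] (R ⊗[k] A) ∧ Module.Free R[X] (R ⊗[k] A) := by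
  letI := (Polynomial.aeval ((1 : R) ⊗ₜ[k] x) : R[X] →ₐ[R] R ⊗[k] A).toRingHom.toAlgebra
  haveI : IsScalarTower R R[X] (R ⊗[k] A) := IsScalarTower.of_algebraMap_eq fun r => by
    rw [RingHom.algebraMap_toAlgebra]
    exact (Polynomial.aeval_C _ r).symm
  let ι : k →+* R := algebraMap k R
  let F : (Fin n → k[X]) →ₗ[k] A :=
    { toFun := fun c => ∑ i, Polynomial.aeval x (c i) * b i
      map_add' := fun c d => by simp [add_mul, Finset.sum_add_distrib]
      map_smul' := fun r c => by simp [Finset.smul_sum] }
  let e : (Fin n → k[X]) ≃ₗ[k] A := LinearEquiv.ofBijective F hb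
  let Φ : (Fin n → R[X]) →ₗ[R[X]] R ⊗[k] A :=
    Fintype.linearCombination R[X] fun i => (1 : R) ⊗ₜ[k] b i
  let m : (Fin n → k[X]) →ₗ[k] (Fin n → R[X]) :=
    { toFun := fun c i => (c i).map ι
      map_add' := fun c d => by funext i; simp
      map_smul' := fun r c => by
        funext i
        simp [Algebra.smul_def, ι] }
  let g : A →ₗ[k] (Fin n → R[X]) := m.comp e.symm.toLinearMap
  let Ψ : R ⊗[k] A →ₗ[R] (Fin n → R[X]) := g.liftBaseChange R
  have hev : ∀ p : k[X], Polynomial.aeval ((1 : R) ⊗ₜ[k] x) (p.map ι) =
      (1 : R) ⊗ₜ[k] Polynomial.aeval x p := fun p => by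
    rw [Polynomial.aeval_map_algebraMap]
    exact Polynomial.aeval_algHom_apply
      (Algebra.TensorProduct.includeRight : A →ₐ[k] R ⊗[k] A) x p
  have hΦm : ∀ c : Fin n → k[X], Φ (m c) = (1 : R) ⊗ₜ[k] F c := fun c => by
    rw [Fintype.linearCombination_apply]
    show ∑ i : Fin n, (c i).map ι • ((1 : R) ⊗ₜ[k] b i) =
      (1 : R) ⊗ₜ[k] ∑ i : Fin n, Polynomial.aeval x (c i) * b i
    rw [TensorProduct.tmul_sum]
    refine Finset.sum_congr rfl fun i _ => ?_
    rw [Algebra.smul_def, RingHom.algebraMap_toAlgebra]
    show Polynomial.aeval _ ((c i).map ι) * _ = _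
    rw [hev, Algebra.TensorProduct.tmul_mul_tmul, one_mul]
  have h1 : ∀ z, Φ (Ψ z) = z := fun z => by
    induction z using TensorProduct.induction_on with
    | zero => rw [map_zero, map_zero]
    | tmul r a =>
      rw [LinearMap.liftBaseChange_tmul, LinearMap.map_smul_of_tower]
      show r • Φ (m (e.symm a)) = _
      rw [hΦm, TensorProduct.smul_tmul', smul_eq_mul, mul_one]
      exact congrArg _ (e.apply_symm_apply a)
    | add a b ha hb => rw [map_add, map_add, ha, hb]
  have h2 : ∀ c, Ψ (Φ c) = c := fun c => by
    have hsingle : ∀ (i : Fin n) (p : R[X]), Ψ (Φ (Pi.single i p)) = Pi.single i p := by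
      intro i p
      induction p using Polynomial.induction_on' with
      | add p q hp hq => rw [Pi.single_add, map_add, map_add, hp, hq]
      | monomial d r =>
        rw [show Pi.single i (monomial d r) = r • m (Pi.single i ((X : k[X]) ^ d)) from by
          funext l
          rw [Pi.smul_apply]
          show _ = r • ((Pi.single i ((X : k[X]) ^ d) : Fin n → k[X]) l).map ι
          rcases eq_or_ne l i with rfl | hl
          · simp [Polynomial.smul_monomial, ← Polynomial.monomial_one_right_eq_X_pow]
          · simp [Pi.single_eq_of_ne hl]]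
        rw [LinearMap.map_smul_of_tower, map_smul, hΦm, LinearMap.liftBaseChange_tmul, one_smul]
        show r • m (e.symm (e _)) = _
        rw [e.symm_apply_apply]
    conv_lhs => rw [← Finset.univ_sum_single c]
    rw [map_sum, map_sum]
    simp only [hsingle]
    exact Finset.univ_sum_single c
  have hbij : Function.Bijective Φ :=
    Function.bijective_iff_has_inverse.2 ⟨Ψ, h2, h1⟩
  exact ⟨Module.Finite.equiv (LinearEquiv.ofBijective Φ hbij),
    Module.Free.of_equiv (LinearEquiv.ofBijective Φ hbij)⟩

variable {R' : Type u} [CommRing R'] [Algebra k R'] [Algebra R R'] [IsScalarTower k R R']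

/-- A semilinear map with spanning image between invertible modules is a base change. -/
theorem isBaseChange_of_span {P P' : Type u} [AddCommGroup P] [AddCommGroup P']
    [Module (R ⊗[k] A) P] [Module (R' ⊗[k] A) P'] [Module.Invertible (R ⊗[k] A) P]
    [Module.Invertible (R' ⊗[k] A) P'] [Module R P] [IsScalarTower R (R ⊗[k] A) P]
    [Module R' P'] [IsScalarTower R' (R' ⊗[k] A) P'] [Module R P'] [IsScalarTower R R' P']
    (f : P →ₗ[R] P')
    (hf : ∀ (b : R ⊗[k] A) (a : P),
      f (b • a) = Algebra.TensorProduct.map (IsScalarTower.toAlgHom k R R') (AlgHom.id k A) b • f a)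
    (hspan : Submodule.span (R' ⊗[k] A) (Set.range f) = ⊤) :
    IsBaseChange R' f := by
  let μ := Algebra.TensorProduct.map (IsScalarTower.toAlgHom k R R') (AlgHom.id k A)
  letI : Algebra (R ⊗[k] A) (R' ⊗[k] A) := μ.toRingHom.toAlgebra
  haveI : IsScalarTower R (R ⊗[k] A) (R' ⊗[k] A) := IsScalarTower.of_algebraMap_eq fun r => by
    rw [RingHom.algebraMap_toAlgebra]
    show algebraMap R (R' ⊗[k] A) r = μ (r ⊗ₜ 1)
    rw [Algebra.TensorProduct.map_tmul, map_one]
    rfl
  haveI : Algebra.IsPushout R R' (R ⊗[k] A) (R' ⊗[k] A) := by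
    refine ⟨IsBaseChange.of_equiv
      (AlgebraTensorModule.cancelBaseChange k R R' R' A) fun z => ?_⟩
    show _ = μ z
    induction z using TensorProduct.induction_on with
    | zero => rw [TensorProduct.tmul_zero, map_zero, map_zero]
    | tmul r a =>
      rw [AlgebraTensorModule.cancelBaseChange_tmul, Algebra.TensorProduct.map_tmul,
        Algebra.smul_def, mul_one]
      rfl
    | add a b ha hb => rw [TensorProduct.tmul_add, map_add, map_add, ha, hb]
  letI : Module (R ⊗[k] A) P' := Module.compHom P' μ.toRingHom
  haveI : IsScalarTower (R ⊗[k] A) (R' ⊗[k] A) P' := IsScalarTower.of_algebraMap_smul fun _ _ => rfl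
  let g : P →ₗ[R ⊗[k] A] P' := { f with map_smul' := hf }
  have hsurj : Function.Surjective (g.liftBaseChange (R' ⊗[k] A)) := by
    rw [← LinearMap.range_eq_top, eq_top_iff, ← hspan, Submodule.span_le]
    rintro _ ⟨a, rfl⟩
    exact ⟨1 ⊗ₜ a, by rw [LinearMap.liftBaseChange_tmul, one_smul]; rfl⟩
  let e₁ := LinearEquiv.ofBijective _ (Module.Invertible.bijective_of_surjective hsurj)
  let e : R' ⊗[R] P ≃ₗ[R'] P' :=
    (Algebra.IsPushout.cancelBaseChange R R' (R ⊗[k] A) (R' ⊗[k] A) P).symm.trans
      (e₁.restrictScalars R')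
  refine IsBaseChange.of_equiv e fun a => ?_
  rw [LinearEquiv.trans_apply, Algebra.IsPushout.cancelBaseChange_symm_tmul, map_one]
  show g.liftBaseChange _ (1 ⊗ₜ a) = f a
  rw [LinearMap.liftBaseChange_tmul, one_smul]
  rfl

end FLTAgent.JacRep.TwoTerm
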