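import Fermat.Agent.JacRep.Defs
import Fermat.Agent.JacRep.Coh.Algebra
import Fermat.Agent.JacRep.Coh.Charts

/-!
# The complex of a bundle

`exists_complex`: finitely many elements of the overlap make the difference map of a bundle
surjective, with finite projective kernel; this two-term complex computes its cohomology. The
bound uses freeness of the charts over their coordinates (`Coh/Charts`, `Coh/TwoTerm`).
`exists_complex_pullback`: pullback of the bundle is base change of the complex.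
-/

set_option autoImplicit false
set_option linter.style.haveILetI false
set_option linter.unusedSectionVars false
set_option maxHeartbeats 800000

noncomputable section

open TensorProduct Polynomial

universe u

namespace FLTAgent.JacRep.Bundle

open TwoTerm

variable {k : Type u} [Field k] {C : Cover k} {R : Type u} [CommRing R] [Algebra k R]
  (E : Bundle C R)

attribute [local instance] rModule₀ rModule₁ rModule

theorem tower₀ : IsScalarTower R (C.B₀ R) E.M₀ := IsScalarTower.of_algebraMap_smul fun _ _ => rfl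

theorem tower₁ : IsScalarTower R (C.B₁ R) E.M₁ := IsScalarTower.of_algebraMap_smul fun _ _ => rfl

theorem tower : IsScalarTower R (C.B R) E.M := IsScalarTower.of_algebraMap_smul fun _ _ => rfl

attribute [local instance] tower₀ tower₁ tower

theorem resB₀_tmul (r : R) (a : C.A₀) : C.resB₀ R (r ⊗ₜ a) = r ⊗ₜ C.res₀ a :=
  Algebra.TensorProduct.map_tmul _ _ _ _

theorem resB₁_tmul (r : R) (a : C.A₁) : C.resB₁ R (r ⊗ₜ a) = r ⊗ₜ C.res₁ a :=
  Algebra.TensorProduct.map_tmul _ _ _ _

/-- Restriction from the first chart, linear over the base. -/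
def lin₀ : E.M₀ →ₗ[R] E.M where
  toFun := E.ι₀
  map_add' := map_add E.ι₀
  map_smul' r a := by
    show E.ι₀ ((r ⊗ₜ[k] (1 : C.A₀)) • a) = (r ⊗ₜ[k] (1 : C.A)) • E.ι₀ a
    rw [LinearMap.map_smulₛₗ, resB₀_tmul, map_one]

/-- Restriction from the second chart, linear over the base. -/
def lin₁ : E.M₁ →ₗ[R] E.M where
  toFun := E.ι₁
  map_add' := map_add E.ι₁
  map_smul' r a := by
    show E.ι₁ ((r ⊗ₜ[k] (1 : C.A₁)) • a) = (r ⊗ₜ[k] (1 : C.A)) • E.ι₁ a
    rw [LinearMap.map_smulₛₗ, resB₁_tmul, map_one]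

theorem diffLin_apply (a : E.M₀) (b : E.M₁) : E.diffLin (a, b) = E.lin₀ a - E.lin₁ b := rfl

theorem diff_eq_diffLin : (E.diff : E.M₀ × E.M₁ → E.M) = E.diffLin := rfl

/-- The enlarged difference map. -/
abbrev cplxExt {N : ℕ} (e : Fin N → E.M) : E.M₀ × E.M₁ × (Fin N → R) →ₗ[R] E.M :=
  extMap E.lin₀ E.lin₁ e

theorem resB_mul : C.resB₀ R (C.xB R) * C.resB₁ R (C.yB R) = 1 := by
  rw [Cover.xB, Cover.yB, resB₀_tmul, resB₁_tmul, Algebra.TensorProduct.tmul_mul_tmul, one_mul,
    C.x_mul_y]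
  rfl

/-- The module of a chart over the polynomials in its coordinate. -/
@[reducible] def polyModule₀ : Module R[X] E.M₀ :=
  Module.compHom E.M₀ (Polynomial.aeval (C.xB R) : R[X] →ₐ[R] C.B₀ R).toRingHom

/-- The module of a chart over the polynomials in its coordinate. -/
@[reducible] def polyModule₁ : Module R[X] E.M₁ :=
  Module.compHom E.M₁ (Polynomial.aeval (C.yB R) : R[X] →ₐ[R] C.B₁ R).toRingHom

/-- The bundle has a two-term complex of finite projective modules. -/
theorem exists_complex : ∃ (N : ℕ) (e : Fin N → E.M), Function.Surjective (E.cplxExt e) ∧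
    Module.Finite R (cplxKer E.lin₀ E.lin₁ e) ∧ Module.Projective R (cplxKer E.lin₀ E.lin₁ e) := by
  classical
  letI := E.polyModule₀
  letI := E.polyModule₁
  letI : Algebra R[X] (C.B₀ R) :=
    (Polynomial.aeval (C.xB R) : R[X] →ₐ[R] C.B₀ R).toRingHom.toAlgebra
  letI : Algebra R[X] (C.B₁ R) :=
    (Polynomial.aeval (C.yB R) : R[X] →ₐ[R] C.B₁ R).toRingHom.toAlgebra
  haveI : IsScalarTower R[X] (C.B₀ R) E.M₀ := IsScalarTower.of_algebraMap_smul fun _ _ => rfl
  haveI : IsScalarTower R[X] (C.B₁ R) E.M₁ := IsScalarTower.of_algebraMap_smul fun _ _ => rfl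
  haveI : IsScalarTower R R[X] E.M₀ := IsScalarTower.of_algebraMap_smul fun r a => by
    show Polynomial.aeval (C.xB R) (algebraMap R R[X] r) • a = r • a
    rw [AlgHom.commutes, algebraMap_smul]
  haveI : IsScalarTower R R[X] E.M₁ := IsScalarTower.of_algebraMap_smul fun r a => by
    show Polynomial.aeval (C.yB R) (algebraMap R R[X] r) • a = r • a
    rw [AlgHom.commutes, algebraMap_smul]
  obtain ⟨hf₀, hp₀⟩ := finite_free_polynomial (R := R) C.x C.basis₀ C.basis₀_bijective
  obtain ⟨hf₁, hp₁⟩ := finite_free_polynomial (R := R) C.y C.basis₁ C.basis₁_bijective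
  haveI : Module.Finite R[X] (C.B₀ R) := hf₀
  haveI : Module.Finite R[X] (C.B₁ R) := hf₁
  haveI : Module.Free R[X] (C.B₀ R) := hp₀
  haveI : Module.Free R[X] (C.B₁ R) := hp₁
  haveI : Module.Finite R[X] E.M₀ := Module.Finite.trans (C.B₀ R) E.M₀
  haveI : Module.Finite R[X] E.M₁ := Module.Finite.trans (C.B₁ R) E.M₁
  haveI : Module.Projective R[X] E.M₀ := projective_restrict (S := R[X]) (B := C.B₀ R)
  haveI : Module.Projective R[X] E.M₁ := projective_restrict (S := R[X]) (B := C.B₁ R)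
  haveI : Module.Projective R E.M₀ := projective_restrict (S := R) (B := C.B₀ R)
  haveI : Module.Projective R E.M₁ := projective_restrict (S := R) (B := C.B₁ R)
  haveI : Module.Projective R E.M := projective_restrict (S := R) (B := C.B R)
  let x : Module.End R E.M :=
    { toFun := fun m => C.resB₀ R (C.xB R) • m
      map_add' := fun a b => smul_add _ a b
      map_smul' := fun r a => smul_comm _ r a }
  let y : Module.End R E.M :=
    { toFun := fun m => C.resB₁ R (C.yB R) • m
      map_add' := fun a b => smul_add _ a b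
      map_smul' := fun r a => smul_comm _ r a }
  have hxy : x * y = 1 := LinearMap.ext fun m => by
    show C.resB₀ R (C.xB R) • C.resB₁ R (C.yB R) • m = m
    rw [smul_smul, resB_mul, one_smul]
  have hyx : y * x = 1 := LinearMap.ext fun m => by
    show C.resB₁ R (C.yB R) • C.resB₀ R (C.xB R) • m = m
    rw [smul_smul, mul_comm, resB_mul, one_smul]
  have hι : ∀ a, E.lin₀ ((X : R[X]) • a) = x (E.lin₀ a) := fun a => by
    show E.ι₀ (Polynomial.aeval (C.xB R) (X : R[X]) • a) = C.resB₀ R (C.xB R) • E.ι₀ a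
    rw [Polynomial.aeval_X, LinearMap.map_smulₛₗ]
  have hκ : ∀ a, E.lin₁ ((X : R[X]) • a) = y (E.lin₁ a) := fun a => by
    show E.ι₁ (Polynomial.aeval (C.yB R) (X : R[X]) • a) = C.resB₁ R (C.yB R) • E.ι₁ a
    rw [Polynomial.aeval_X, LinearMap.map_smulₛₗ]
  have hpow : ∀ (c : C.B R) (f : Module.End R E.M), (∀ m, f m = c • m) →
      ∀ (n : ℕ) m, (f ^ n) m = c ^ n • m := by
    intro c f hf n
    induction n with
    | zero => simp
    | succ n ih => intro m; rw [pow_succ', Module.End.mul_apply, ih, hf, smul_smul, ← pow_succ']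
  have hloc₀ : ∀ m, ∃ (n : ℕ) (a : E.M₀), (x ^ n) m = E.lin₀ a := fun m => by
    obtain ⟨n, a, ha⟩ := E.loc₀ m
    exact ⟨n, a, (hpow _ x (fun _ => rfl) n m).trans ha⟩
  have hloc₁ : ∀ m, ∃ (n : ℕ) (b : E.M₁), (y ^ n) m = E.lin₁ b := fun m => by
    obtain ⟨n, a, ha⟩ := E.loc₁ m
    exact ⟨n, a, (hpow _ y (fun _ => rfl) n m).trans ha⟩
  obtain ⟨N, e, he⟩ := exists_generators x y E.lin₀ E.lin₁ hι hκ hyx hloc₀ hloc₁
  obtain ⟨S₀, hS₀, hS₀'⟩ := exists_fg_bound x y E.lin₀ E.lin₁ hι hκ hxy E.inj₀ hloc₀ e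
  obtain ⟨S₁, hS₁, hS₁'⟩ := exists_fg_bound y x E.lin₁ E.lin₀ hκ hι hyx E.inj₁ hloc₁ e
  have hsurj : Function.Surjective (E.cplxExt e) := by
    intro m
    obtain ⟨u, hu, v, hv, rfl⟩ := Submodule.mem_sup.1 (he m)
    obtain ⟨a', ⟨a, rfl⟩, b', ⟨b, rfl⟩, rfl⟩ := Submodule.mem_sup.1 hu
    obtain ⟨c, rfl⟩ := (Submodule.mem_span_range_iff_exists_fun R).1 hv
    exact ⟨(a, -b, c), by rw [cplxExt, extMap_apply, map_neg, sub_neg_eq_add]⟩
  refine ⟨N, e, hsurj,
    finite_ker _ hsurj (S₀.prod (S₁.prod ⊤)) (hS₀.prod (hS₁.prod Module.Finite.fg_top)) ?_,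
    projective_ker _ hsurj⟩
  rintro ⟨a, b, c⟩ hz
  rw [LinearMap.mem_ker, extMap_apply] at hz
  have hc : (∑ i, c i • e i) ∈ Submodule.span R (Set.range e) :=
    (Submodule.mem_span_range_iff_exists_fun R).2 ⟨c, rfl⟩
  refine ⟨hS₀' a (Submodule.mem_sup.2 ⟨E.lin₁ b, LinearMap.mem_range_self _ b, -∑ i, c i • e i,
      neg_mem hc, ?_⟩),
    hS₁' b (Submodule.mem_sup.2 ⟨E.lin₀ a, LinearMap.mem_range_self _ a, ∑ i, c i • e i, hc, ?_⟩),
    trivial⟩
  · linear_combination (norm := abel) -hz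
  · linear_combination (norm := abel) hz

variable {R' : Type u} [CommRing R'] [Algebra k R'] [Algebra R R'] [IsScalarTower k R R']

/-- A pullback has the pulled back complex. -/
theorem exists_complex_pullback {N : ℕ} (e : Fin N → E.M) (hsurj : Function.Surjective (E.cplxExt e))
    {E' : Bundle C R'} (h : IsPullback (IsScalarTower.toAlgHom k R R') E E') :
    ∃ e' : Fin N → E'.M, Function.Surjective (E'.cplxExt e') ∧
      ∃ χ : R' ⊗[R] cplxKer E.lin₀ E.lin₁ e ≃ₗ[R'] cplxKer E'.lin₀ E'.lin₁ e',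
        ∀ z, cplxD E'.lin₀ E'.lin₁ e' (χ z) =
          TensorProduct.piScalarRight R R' R' (Fin N)
            ((cplxD E.lin₀ E.lin₁ e).baseChange R' z) := by
  classical
  obtain ⟨f₀, f₁, f, hs₀, hs₁, hf₀, hf₁⟩ := h
  letI : Module R E'.M₀ := Module.compHom E'.M₀ (algebraMap R R')
  letI : Module R E'.M₁ := Module.compHom E'.M₁ (algebraMap R R')
  letI : Module R E'.M := Module.compHom E'.M (algebraMap R R')
  haveI : IsScalarTower R R' E'.M₀ := IsScalarTower.of_algebraMap_smul fun _ _ => rfl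
  haveI : IsScalarTower R R' E'.M₁ := IsScalarTower.of_algebraMap_smul fun _ _ => rfl
  haveI : IsScalarTower R R' E'.M := IsScalarTower.of_algebraMap_smul fun _ _ => rfl
  let g₀ : E.M₀ →ₗ[R] E'.M₀ :=
    { toFun := f₀
      map_add' := map_add f₀
      map_smul' := fun r a => by
        show f₀ ((r ⊗ₜ[k] (1 : C.A₀)) • a) = (algebraMap R R' r ⊗ₜ[k] (1 : C.A₀)) • f₀ a
        rw [LinearMap.map_smulₛₗ]
        rfl }
  let g₁ : E.M₁ →ₗ[R] E'.M₁ :=
    { toFun := f₁
      map_add' := map_add f₁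
      map_smul' := fun r a => by
        show f₁ ((r ⊗ₜ[k] (1 : C.A₁)) • a) = (algebraMap R R' r ⊗ₜ[k] (1 : C.A₁)) • f₁ a
        rw [LinearMap.map_smulₛₗ]
        rfl }
  let g : E.M →ₗ[R] E'.M :=
    { toFun := f
      map_add' := map_add f
      map_smul' := fun r a => by
        show f ((r ⊗ₜ[k] (1 : C.A)) • a) = (algebraMap R R' r ⊗ₜ[k] (1 : C.A)) • f a
        rw [LinearMap.map_smulₛₗ]
        rfl }
  have hspan : Submodule.span (C.B R') (Set.range g) = ⊤ := by
    rw [eq_top_iff]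
    rintro m -
    obtain ⟨n, a, ha⟩ := E'.loc₀ m
    have h0 : E'.ι₀ a ∈ Submodule.span (C.B R') (Set.range g) := by
      have hmem : a ∈ Submodule.span (C.B₀ R') (Set.range f₀) := hs₀ ▸ Submodule.mem_top
      clear ha
      induction hmem using Submodule.span_induction with
      | mem z hz => obtain ⟨w, rfl⟩ := hz; rw [← hf₀]; exact Submodule.subset_span ⟨_, rfl⟩
      | zero => rw [map_zero]; exact zero_mem _
      | add u v _ _ hu hv => rw [map_add]; exact add_mem hu hv
      | smul b u _ hu => rw [LinearMap.map_smulₛₗ]; exact Submodule.smul_mem _ _ hu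
    have hm : C.resB₁ R' (C.yB R') ^ n • E'.ι₀ a = m := by
      rw [← ha, smul_smul, ← mul_pow, mul_comm, resB_mul, one_pow, one_smul]
    rw [← hm]
    exact Submodule.smul_mem _ _ h0
  have hB₀ : IsBaseChange R' g₀ :=
    isBaseChange_of_span g₀ (fun b a => f₀.map_smulₛₗ b a) hs₀
  have hB₁ : IsBaseChange R' g₁ :=
    isBaseChange_of_span g₁ (fun b a => f₁.map_smulₛₗ b a) hs₁
  have hB : IsBaseChange R' g := isBaseChange_of_span g (fun b a => f.map_smulₛₗ b a) hspan
  let gN : (Fin N → R) →ₗ[R] (Fin N → R') := (Algebra.linearMap R R').compLeft (Fin N)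
  have hBN : IsBaseChange R' gN := IsBaseChange.finitePow _ (IsBaseChange.linearMap R R')
  have hT : IsBaseChange R' (g₀.prodMap (g₁.prodMap gN)) :=
    IsBaseChange.prodMap _ _ hB₀ (IsBaseChange.prodMap _ _ hB₁ hBN)
  let e' : Fin N → E'.M := fun i => g (e i)
  have hcomm : ∀ t, E'.cplxExt e' (g₀.prodMap (g₁.prodMap gN) t) = g (E.cplxExt e t) := by
    rintro ⟨a, b, c⟩
    simp only [cplxExt, LinearMap.prodMap_apply, extMap_apply, map_add, map_sub, map_sum]
    congr 1
    · congr 1
      · exact (hf₀ a).symm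
      · exact (hf₁ b).symm
    · refine Finset.sum_congr rfl fun i _ => ?_
      rw [map_smul, ← algebraMap_smul R' (c i)]
      rfl
  haveI : Module.Projective R E.M := projective_restrict (S := R) (B := C.B R)
  have hK := isBaseChange_ker (E.cplxExt e) hT hB hcomm hsurj
  refine ⟨e', surjective_of_isBaseChange (E.cplxExt e) hB hcomm hsurj, hK.equiv, fun z => ?_⟩
  induction z using TensorProduct.induction_on with
  | zero => simp
  | tmul r t =>
    rw [IsBaseChange.equiv_tmul, map_smul, LinearMap.baseChange_tmul,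
      TensorProduct.piScalarRight_apply, TensorProduct.piScalarRightHom_tmul]
    funext i
    rw [Pi.smul_apply, smul_eq_mul, mul_comm, Algebra.smul_def]
    rfl
  | add a b ha hb => rw [map_add, map_add, ha, hb, map_add, map_add]

end FLTAgent.JacRep.Bundle
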