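import Mathlib

/-!
# A two-chart difference map as a two-term complex

For two modules over `R[X]` mapping to `M`, with `X` acting by mutually inverse endomorphisms:
* `exists_generators`: finitely many elements span `M` together with both images;
* `exists_fg_bound`: the elements of one chart gluing with the other up to those lie in a finitely
  generated submodule;
* `cplxKer`, `cplxD`, `kerEquiv`, `cokerEquiv`, `bijective_diff_iff`, `finrank_sub_finrank`: the
  enlarged complex has the cohomology and Euler characteristic of the difference map.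
-/

set_option autoImplicit false
set_option linter.style.haveILetI false
set_option linter.unusedSectionVars false

noncomputable section

open Polynomial TensorProduct

namespace FLTAgent.JacRep.TwoTerm

section Bound

variable {R : Type*} [CommRing R] {P Q M : Type*} [AddCommGroup P] [AddCommGroup Q] [AddCommGroup M]
  [Module R P] [Module R Q] [Module R M] [Module R[X] P] [Module R[X] Q]
  [IsScalarTower R R[X] P] [IsScalarTower R R[X] Q]
  (x y : Module.End R M) (ι : P →ₗ[R] M) (κ : Q →ₗ[R] M)

theorem X_pow_map (hι : ∀ a, ι ((X : R[X]) • a) = x (ι a)) (n : ℕ) (a : P) :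
    (x ^ n) (ι a) = ι ((X : R[X]) ^ n • a) := by
  induction n with
  | zero => simp
  | succ n ih => rw [pow_succ', Module.End.mul_apply, ih, ← hι, ← mul_smul, ← pow_succ']

theorem smul_eq_poly (p : R[X]) (S : Submodule R P) (hS : ∀ a ∈ S, (X : R[X]) • a ∈ S) {a : P}
    (ha : a ∈ S) : p • a ∈ S := by
  induction p using Polynomial.induction_on with
  | C r => rw [C_eq_algebraMap, algebraMap_smul]; exact S.smul_mem r ha
  | add p q hp hq => rw [add_smul]; exact add_mem hp hq
  | monomial n r ih =>
    rw [pow_succ', mul_left_comm, mul_smul]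
    exact hS _ ih

/-- A finite set of elements of `M` spans it together with the images of the two charts. -/
theorem exists_generators [Module.Finite R[X] P] (hι : ∀ a, ι ((X : R[X]) • a) = x (ι a))
    (hκ : ∀ b, κ ((X : R[X]) • b) = y (κ b)) (hyx : y * x = 1)
    (hloc₀ : ∀ m, ∃ (n : ℕ) (a : P), (x ^ n) m = ι a)
    (hloc₁ : ∀ m, ∃ (n : ℕ) (b : Q), (y ^ n) m = κ b) :
    ∃ (N : ℕ) (e : Fin N → M), ∀ m : M,
      m ∈ LinearMap.range ι ⊔ LinearMap.range κ ⊔ Submodule.span R (Set.range e) := by
  classical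
  obtain ⟨G, hG⟩ := (Module.Finite.fg_top : (⊤ : Submodule R[X] P).FG)
  choose n₁ b₁ hb₁ using fun g : G => hloc₁ (ι g)
  set A := Finset.univ.sup n₁
  let e : Fin (Fintype.card (G × Fin A)) → M := fun i =>
    (y ^ (((Fintype.equivFin _).symm i).2 : ℕ)) (ι (((Fintype.equivFin _).symm i).1 : P))
  refine ⟨_, e, fun m => ?_⟩
  set T := LinearMap.range ι ⊔ LinearMap.range κ ⊔ Submodule.span R (Set.range e)
  let S : Submodule R P :=
    { carrier := {a | ∀ n : ℕ, (y ^ n) (ι a) ∈ T}
      add_mem' := fun ha hb n => by rw [map_add, map_add]; exact add_mem (ha n) (hb n)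
      zero_mem' := fun n => by simp
      smul_mem' := fun r a ha n => by rw [map_smul, map_smul]; exact T.smul_mem r (ha n) }
  have hSX : ∀ a ∈ S, (X : R[X]) • a ∈ S := by
    intro a ha n
    cases n with
    | zero =>
      rw [pow_zero, Module.End.one_apply]
      exact Submodule.mem_sup_left (Submodule.mem_sup_left (LinearMap.mem_range_self ι _))
    | succ n =>
      rw [hι, pow_succ, Module.End.mul_apply, show y (x (ι a)) = (y * x) (ι a) from rfl, hyx,
        Module.End.one_apply]
      exact ha n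
  have hgen : ∀ g : G, (g : P) ∈ S := by
    intro g n
    rcases lt_or_ge n A with hn | hn
    · refine Submodule.mem_sup_right (Submodule.subset_span
        ⟨Fintype.equivFin _ (g, ⟨n, hn⟩), ?_⟩)
      simp [e]
    · refine Submodule.mem_sup_left (Submodule.mem_sup_right ?_)
      obtain ⟨d, rfl⟩ : ∃ d, n = d + n₁ g :=
        ⟨n - n₁ g, by have := Finset.le_sup (f := n₁) (Finset.mem_univ g); omega⟩
      rw [pow_add, Module.End.mul_apply, hb₁, X_pow_map y κ hκ]
      exact LinearMap.mem_range_self κ _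
  have hall : ∀ a : P, a ∈ S := by
    intro a
    have ha : a ∈ Submodule.span R[X] (G : Set P) := hG.symm ▸ Submodule.mem_top
    induction ha using Submodule.span_induction with
    | mem g hg => exact hgen ⟨g, hg⟩
    | zero => exact S.zero_mem
    | add a b _ _ ha hb => exact add_mem ha hb
    | smul p a _ ha => exact smul_eq_poly p S hSX ha
  obtain ⟨n, a, ha⟩ := hloc₀ m
  have hm : m = (y ^ n) (ι a) := by
    have hn : y ^ n * x ^ n = 1 := by
      clear * - hyx
      induction n with
      | zero => simp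
      | succ n ih => rw [pow_succ' x, pow_succ y, mul_assoc, ← mul_assoc y, hyx, one_mul, ih]
    rw [← ha, ← Module.End.mul_apply, hn, Module.End.one_apply]
  rw [hm]
  exact hall a n

/-- Elements of the first chart glueing with the second up to a finite module have bounded
degree. -/
theorem exists_fg_bound [Module.Finite R[X] P] [Module.Projective R[X] P] [Module.Finite R[X] Q]
    (hι : ∀ a, ι ((X : R[X]) • a) = x (ι a)) (hκ : ∀ b, κ ((X : R[X]) • b) = y (κ b))
    (hxy : x * y = 1) (hinj : Function.Injective ι)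
    (hloc₀ : ∀ m, ∃ (n : ℕ) (a : P), (x ^ n) m = ι a) {N : ℕ} (e : Fin N → M) :
    ∃ S : Submodule R P, S.FG ∧ ∀ a,
      ι a ∈ LinearMap.range κ ⊔ Submodule.span R (Set.range e) → a ∈ S := by
  classical
  obtain ⟨n, π, hπ⟩ := Module.Finite.exists_fin' R[X] P
  obtain ⟨j, hj⟩ := Module.projective_lifting_property π LinearMap.id hπ
  obtain ⟨G, hG⟩ := (Module.Finite.fg_top : (⊤ : Submodule R[X] Q).FG)
  let h : G ⊕ Fin N → M := Sum.elim (fun g => κ g) e
  choose n₀ w hw using fun s => hloc₀ (h s)
  set A := Finset.univ.sup n₀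
  have hA : ∀ s, n₀ s ≤ A := fun s => Finset.le_sup (Finset.mem_univ s)
  let w' : G ⊕ Fin N → P := fun s => (X : R[X]) ^ (A - n₀ s) • w s
  have hw' : ∀ s, (x ^ A) (h s) = ι (w' s) := fun s => by
    rw [← Nat.sub_add_cancel (hA s), pow_add, Module.End.mul_apply, hw, X_pow_map x ι hι]
  set D := (Finset.univ.sup fun p : (G ⊕ Fin N) × Fin n => (j (w' p.1) p.2).natDegree) + 1
  have hD : ∀ s i, j (w' s) i ∈ degreeLT R D := fun s i =>
    mem_degreeLT.2 (lt_of_le_of_lt degree_le_natDegree (WithBot.coe_lt_coe.2 (Nat.lt_succ_of_le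
      (Finset.le_sup (f := fun p : (G ⊕ Fin N) × Fin n => (j (w' p.1) p.2).natDegree)
        (Finset.mem_univ (s, i))))))
  let Z : Submodule R M :=
    { carrier := {z | ∃ l, ∀ l' ≥ l, ∃ v : P, (x ^ (A + l')) z = ι v ∧
        ∀ i, j v i ∈ degreeLT R (l' + D)}
      add_mem' := by
        rintro z z' ⟨l, hl⟩ ⟨l₂, hl₂⟩
        refine ⟨max l l₂, fun l' hl' => ?_⟩
        obtain ⟨v, hv, hv'⟩ := hl l' (le_of_max_le_left hl')
        obtain ⟨v₂, hv₂, hv₂'⟩ := hl₂ l' (le_of_max_le_right hl')
        exact ⟨v + v₂, by rw [map_add, map_add, hv, hv₂], fun i => by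
          rw [map_add, Pi.add_apply]; exact add_mem (hv' i) (hv₂' i)⟩
      zero_mem' := ⟨0, fun l' _ => ⟨0, by rw [map_zero, map_zero], fun i => by
        rw [map_zero]; exact zero_mem _⟩⟩
      smul_mem' := by
        rintro r z ⟨l, hl⟩
        refine ⟨l, fun l' hl' => ?_⟩
        obtain ⟨v, hv, hv'⟩ := hl l' hl'
        exact ⟨r • v, by rw [map_smul, map_smul, hv], fun i => by
          rw [LinearMap.map_smul_of_tower, Pi.smul_apply]; exact Submodule.smul_mem _ r (hv' i)⟩ }
  have hZh : ∀ s, h s ∈ Z := fun s => ⟨0, fun l' _ => ⟨(X : R[X]) ^ l' • w' s, by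
      rw [add_comm, pow_add, Module.End.mul_apply, hw', X_pow_map x ι hι], fun i => by
      rw [map_smul, Pi.smul_apply, smul_eq_mul, mem_degreeLT, degree_lt_iff_coeff_zero]
      intro m hm
      have h1 := hD s i
      rw [mem_degreeLT, degree_lt_iff_coeff_zero] at h1
      rw [coeff_X_pow_mul', if_pos (by omega)]
      exact h1 _ (by omega)⟩⟩
  have hZy : ∀ z ∈ Z, y z ∈ Z := by
    rintro z ⟨l, hl⟩
    refine ⟨l + 1, fun l' hl' => ?_⟩
    obtain ⟨v, hv, hv'⟩ := hl (l' - 1) (by omega)
    refine ⟨v, ?_, fun i => degreeLT_mono (by omega) (hv' i)⟩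
    rw [show A + l' = A + (l' - 1) + 1 by omega, pow_succ, Module.End.mul_apply,
      ← Module.End.mul_apply x y, hxy, Module.End.one_apply]
    exact hv
  have hκZ : ∀ b, κ b ∈ Z := by
    intro b
    have hb : b ∈ Submodule.span R[X] (G : Set Q) := hG.symm ▸ Submodule.mem_top
    induction hb using Submodule.span_induction with
    | mem g hg => exact hZh (Sum.inl ⟨g, hg⟩)
    | zero => rw [map_zero]; exact Z.zero_mem
    | add a b _ _ ha hb => rw [map_add]; exact add_mem ha hb
    | smul p a _ ha =>
      exact smul_eq_poly p (Z.comap κ) (fun c hc => by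
        show κ ((X : R[X]) • c) ∈ Z
        rw [hκ]; exact hZy _ hc) ha
  refine ⟨Submodule.span R (Set.range fun p : Fin n × Fin D =>
    π (Pi.single p.1 ((X : R[X]) ^ (p.2 : ℕ)))), Submodule.fg_span (Set.finite_range _),
    fun a ha => ?_⟩
  have haZ : ι a ∈ Z := by
    refine (sup_le ?_ ?_ : LinearMap.range κ ⊔ Submodule.span R (Set.range e) ≤ Z) ha
    · rintro _ ⟨b, rfl⟩; exact hκZ b
    · exact Submodule.span_le.2 (by rintro _ ⟨i, rfl⟩; exact hZh (Sum.inr i))
  obtain ⟨l, hl⟩ := haZ
  obtain ⟨v, hv, hv'⟩ := hl l le_rfl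
  rw [X_pow_map x ι hι] at hv
  have hva : (X : R[X]) ^ (A + l) • a = v := hinj hv
  have hdeg : ∀ i, j a i ∈ degreeLT R D := by
    intro i
    have h1 := hv' i
    rw [← hva, map_smul, Pi.smul_apply, smul_eq_mul, mem_degreeLT] at h1
    rw [mem_degreeLT, degree_lt_iff_coeff_zero]
    rw [degree_lt_iff_coeff_zero] at h1
    intro m hm
    rw [← coeff_X_pow_mul (j a i) (A + l) m]
    exact h1 _ (by omega)
  have hsum : a = ∑ i, π (Pi.single i (j a i)) := by
    rw [← map_sum, Finset.univ_sum_single]
    exact (LinearMap.congr_fun hj a).symm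
  rw [hsum]
  refine sum_mem fun i _ => ?_
  rw [show j a i = ∑ m ∈ Finset.range D, C ((j a i).coeff m) * X ^ m from by
    rw [← sum_over_range' _ (f := fun m r => C r * X ^ m) (by simp) _
      (by
        rcases eq_or_ne (j a i) 0 with h0 | h0
        · rw [h0, natDegree_zero]; omega
        · exact (natDegree_lt_iff_degree_lt h0).2 (mem_degreeLT.1 (hdeg i)))]
    exact (sum_C_mul_X_pow_eq _).symm,
    ← LinearMap.single_apply (R := R[X]), map_sum, map_sum]
  refine sum_mem fun m hm => ?_
  rw [LinearMap.single_apply, ← smul_eq_C_mul, Pi.single_smul, LinearMap.map_smul_of_tower]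
  exact Submodule.smul_mem _ _ (Submodule.subset_span ⟨(i, ⟨m, Finset.mem_range.1 hm⟩), rfl⟩)

end Bound

section Complex

variable {R : Type*} [CommRing R] {P Q M : Type*} [AddCommGroup P] [AddCommGroup Q] [AddCommGroup M]
  [Module R P] [Module R Q] [Module R M] (ι : P →ₗ[R] M) (κ : Q →ₗ[R] M) {N : ℕ} (e : Fin N → M)

/-- The difference map, enlarged by finitely many elements. -/
def extMap : P × Q × (Fin N → R) →ₗ[R] M :=
  ι.comp (LinearMap.fst R _ _) - κ.comp ((LinearMap.fst R _ _).comp (LinearMap.snd R _ _)) +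
    (Fintype.linearCombination R e).comp ((LinearMap.snd R _ _).comp (LinearMap.snd R _ _))

theorem extMap_apply (a : P) (b : Q) (c : Fin N → R) :
    extMap ι κ e (a, b, c) = ι a - κ b + ∑ i, c i • e i := rfl

/-- The first term of the two-term complex. -/
abbrev cplxKer : Submodule R (P × Q × (Fin N → R)) := LinearMap.ker (extMap ι κ e)

/-- The differential of the two-term complex. -/
def cplxD : cplxKer ι κ e →ₗ[R] (Fin N → R) :=
  ((LinearMap.snd R Q _).comp (LinearMap.snd R P _)).comp (cplxKer ι κ e).subtype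

variable (diff : P × Q →ₗ[R] M) (hdiff : ∀ a b, diff (a, b) = ι a - κ b)

/-- The cycles of the complex are the sections. -/
def kerEquiv : LinearMap.ker (cplxD ι κ e) ≃ₗ[R] LinearMap.ker diff where
  toFun z := ⟨(z.1.1.1, z.1.1.2.1), by
    obtain ⟨⟨⟨a, b, c⟩, hz⟩, hc⟩ := z
    rw [LinearMap.mem_ker, hdiff]
    have hc' : c = 0 := hc
    subst hc'
    simpa [extMap_apply] using hz⟩
  map_add' _ _ := rfl
  map_smul' _ _ := rfl
  invFun z := ⟨⟨(z.1.1, z.1.2, 0), by
    rw [LinearMap.mem_ker, extMap_apply, ← hdiff]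
    simp⟩, rfl⟩
  left_inv := fun z => by
    obtain ⟨⟨⟨a, b, c⟩, hz⟩, hc⟩ := z
    have hc' : c = 0 := hc
    subst hc'
    rfl
  right_inv _ := rfl

variable (hsurj : Function.Surjective (extMap ι κ e))

include hdiff in
theorem mem_range_diff_iff (c : Fin N → R) :
    ∑ i, c i • e i ∈ LinearMap.range diff ↔ c ∈ LinearMap.range (cplxD ι κ e) := by
  constructor
  · rintro ⟨⟨a, b⟩, h⟩
    refine ⟨⟨(-a, -b, c), ?_⟩, rfl⟩
    rw [LinearMap.mem_ker, extMap_apply, map_neg, map_neg, ← h, hdiff]
    abel
  · rintro ⟨⟨⟨a, b, c'⟩, hz⟩, rfl⟩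
    refine ⟨(-a, -b), ?_⟩
    rw [LinearMap.mem_ker, extMap_apply] at hz
    rw [hdiff, map_neg, map_neg]
    show _ = ∑ i, c' i • e i
    linear_combination (norm := abel) -hz

/-- The obstructions of the complex are those of the difference map. -/
def cokerEquiv : ((Fin N → R) ⧸ LinearMap.range (cplxD ι κ e)) ≃ₗ[R] (M ⧸ LinearMap.range diff) :=
  Submodule.quotEquivOfEq _ _ (by
      ext c
      rw [LinearMap.mem_ker, LinearMap.comp_apply, Submodule.mkQ_apply,
        Submodule.Quotient.mk_eq_zero]
      exact (mem_range_diff_iff ι κ e diff hdiff c).symm) ≪≫ₗ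
    LinearMap.quotKerEquivOfSurjective
      ((LinearMap.range diff).mkQ.comp (Fintype.linearCombination R e)) (by
        intro z
        obtain ⟨m, rfl⟩ := Submodule.mkQ_surjective _ z
        obtain ⟨⟨a, b, c⟩, rfl⟩ := hsurj m
        refine ⟨c, (Submodule.Quotient.eq _).2 ⟨(-a, -b), ?_⟩⟩
        rw [hdiff, extMap_apply, map_neg, map_neg, Fintype.linearCombination_apply]
        abel)

include hdiff hsurj in
/-- The difference map is bijective iff the differential is. -/
theorem bijective_diff_iff :
    Function.Bijective diff ↔ Function.Bijective (cplxD ι κ e) := by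
  refine and_congr ?_ ?_
  · rw [← LinearMap.ker_eq_bot, ← LinearMap.ker_eq_bot, ← Submodule.subsingleton_iff_eq_bot,
      ← Submodule.subsingleton_iff_eq_bot]
    exact (kerEquiv ι κ e diff hdiff).toEquiv.subsingleton_congr.symm
  · rw [← LinearMap.range_eq_top, ← LinearMap.range_eq_top,
      ← Submodule.Quotient.subsingleton_iff, ← Submodule.Quotient.subsingleton_iff]
    exact (cokerEquiv ι κ e diff hdiff hsurj).toEquiv.subsingleton_congr.symm

end Complex

section Euler

variable {K : Type*} [Field K] {P Q M : Type*} [AddCommGroup P] [AddCommGroup Q] [AddCommGroup M]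
  [Module K P] [Module K Q] [Module K M] (ι : P →ₗ[K] M) (κ : Q →ₗ[K] M) {N : ℕ} (e : Fin N → M)
  (diff : P × Q →ₗ[K] M) (hdiff : ∀ a b, diff (a, b) = ι a - κ b)
  (hsurj : Function.Surjective (extMap ι κ e)) [FiniteDimensional K (cplxKer ι κ e)]

include hdiff hsurj in
/-- Over a field a finite complex gives finite cohomology. -/
theorem finite_cohomology :
    Module.Finite K (LinearMap.ker diff) ∧ Module.Finite K (M ⧸ LinearMap.range diff) :=
  ⟨Module.Finite.equiv (kerEquiv ι κ e diff hdiff),
    Module.Finite.equiv (cokerEquiv ι κ e diff hdiff hsurj)⟩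

include hdiff hsurj in
/-- The Euler characteristic of the difference map is that of the complex. -/
theorem finrank_sub_finrank :
    (Module.finrank K (LinearMap.ker diff) : ℤ) - Module.finrank K (M ⧸ LinearMap.range diff) =
      (Module.finrank K (cplxKer ι κ e) : ℤ) - N := by
  rw [← (kerEquiv ι κ e diff hdiff).finrank_eq, ← (cokerEquiv ι κ e diff hdiff hsurj).finrank_eq]
  have h1 := LinearMap.finrank_range_add_finrank_ker (cplxD ι κ e)
  have h2 := Submodule.finrank_quotient_add_finrank (LinearMap.range (cplxD ι κ e))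
  rw [Module.finrank_fin_fun] at h2
  omega

end Euler

end FLTAgent.JacRep.TwoTerm
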